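import Mathlib
import Fermat.Agent.MUL.Orig.S18.KeyBasic
import Fermat.Agent.MUL.Lib.BadRed.Nodal.Setup
import Fermat.Agent.MUL.Lib.BadRed.Nodal.RRNodal
import Fermat.Agent.MUL.Lib.Deuring.Basic
import Fermat.Agent.MUL.Lib.Deuring.RedSpace
import Fermat.Agent.MUL.Lib.BadRed.Nodal.RedSpace2

section MergeWrap_Lib_BadRed_Nodal_Gluing_Values -- from Lib/BadRed/Nodal/Gluing/Values.lean

set_option autoImplicit false

/-!
# Cluster T, WP N3 (gluing): values at places, reduction of divisors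

* multiplicativity of `ValAt` (values at a place), `n`-th roots;
* `redDiv₁`, `redDiv₂`: the reduction `r_*` of divisors, restricted to the two components, and the
  degree formula `deg D = (r_* D)(none) + deg (redDiv₁ D) + deg (redDiv₂ D)`.
-/

noncomputable section

open AlgebraicCurve Fermat.Agent.RR Fermat.Agent.Deuring

namespace Fermat.Agent.BadRed.Gluing

section Values

variable {K F : Type*} [Field K] [Field F] [Algebra K F]

theorem valAt_ord_nonneg {Q : Place K F} {f : F} {c : K} (h : ValAt Q f c) : 0 ≤ Q.ord f := by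
  rcases h with h | h
  · rw [h]
    exact (Fermat.Agent.S24Res.ord_algebraMap Q c).ge
  · have e : f = (f - algebraMap K F c) + algebraMap K F c := by ring
    rw [e]
    exact Fermat.Agent.S18Key.ord_nonneg_add Q h.le (Fermat.Agent.S24Res.ord_algebraMap Q c).ge

theorem vanAt_mul_of_nonneg {Q : Place K F} {f g : F} (hf : VanAt Q f) (hg : 0 ≤ Q.ord g) :
    VanAt Q (f * g) := by
  rcases hf with rfl | hf
  · rw [zero_mul]; exact vanAt_zero Q
  rcases eq_or_ne g 0 with rfl | hg0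
  · rw [mul_zero]; exact vanAt_zero Q
  have hf0 : f ≠ 0 := by
    rintro rfl
    rw [Place.ord_zero] at hf
    exact lt_irrefl _ hf
  right
  rw [Q.ord_mul hf0 hg0]
  omega

theorem valAt_algebraMap (Q : Place K F) (c : K) : ValAt Q (algebraMap K F c) c := Or.inl rfl

theorem valAt_one (Q : Place K F) : ValAt Q (1 : F) (1 : K) := Or.inl (map_one _).symm

theorem valAt_mul {Q : Place K F} {f g : F} {c d : K} (hf : ValAt Q f c) (hg : ValAt Q g d) :
    ValAt Q (f * g) (c * d) := by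
  have hg0 := valAt_ord_nonneg hg
  rw [valAt_iff_vanAt] at hf hg ⊢
  have e : f * g - algebraMap K F (c * d) =
      (f - algebraMap K F c) * g + (g - algebraMap K F d) * algebraMap K F c := by
    rw [map_mul]; ring
  rw [e]
  exact (vanAt_mul_of_nonneg hf hg0).add
    (vanAt_mul_of_nonneg hg (Fermat.Agent.S24Res.ord_algebraMap Q c).ge)

theorem valAt_pow {Q : Place K F} {f : F} {c : K} (hf : ValAt Q f c) (n : ℕ) :
    ValAt Q (f ^ n) (c ^ n) := by
  induction n with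
  | zero => rw [pow_zero, pow_zero]; exact valAt_one Q
  | succ m ih => rw [pow_succ, pow_succ]; exact valAt_mul ih hf

theorem ord_pow_nat (Q : Place K F) (f : F) (n : ℕ) : Q.ord (f ^ n) = n * Q.ord f := by
  have := Q.ord_zpow f (n : ℤ)
  rwa [zpow_natCast] at this

theorem ord_nonneg_of_pow {Q : Place K F} {f : F} {n : ℕ} (hn : n ≠ 0)
    (h : 0 ≤ Q.ord (f ^ n)) : 0 ≤ Q.ord f := by
  rw [ord_pow_nat] at h
  have hn' : (0 : ℤ) < n := by exact_mod_cast Nat.pos_of_ne_zero hn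
  by_contra hneg
  push Not at hneg
  have : (n : ℤ) * Q.ord f < 0 := mul_neg_of_pos_of_neg hn' hneg
  omega

/-- existence of the value (residue field `= K`). -/
theorem exists_valAt (h : IsRRField K F) (Q : Place K F) {f : F} (hf : 0 ≤ Q.ord f) :
    ∃ c : K, ValAt Q f c := exists_const_sub h Q hf

/-- a regular function with nonzero value has order `0`. -/
theorem ord_eq_zero_of_valAt {Q : Place K F} {f : F} {c : K} (h : ValAt Q f c) (hc : c ≠ 0) :
    Q.ord f = 0 := by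
  rcases h with h | h
  · rw [h]
    exact Fermat.Agent.S24Res.ord_algebraMap Q c
  · have h0 := valAt_ord_nonneg (Or.inr h : ValAt Q f c)
    by_contra hne
    have hpos : 0 < Q.ord f := lt_of_le_of_ne h0 (Ne.symm hne)
    have hv : VanAt Q f := Or.inr hpos
    have hv' : ValAt Q f 0 := (valAt_zero_right_iff Q f).mpr hv
    have hv'' : ValAt Q f c := Or.inr h
    exact hc (hv''.unique hv')

/-- **twisted equality of values from equality of `n`-th powers.** -/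
theorem exists_root_of_unity (h₁ : IsRRField K F) {F' : Type*} [Field F'] [Algebra K F']
    (h₂ : IsRRField K F') (Q : Place K F) (Q' : Place K F') {a : F} {b : F'} {n : ℕ} (hn : n ≠ 0)
    (ha : 0 ≤ Q.ord (a ^ n)) (hb : 0 ≤ Q'.ord (b ^ n))
    (hab : ∃ c : K, ValAt Q (a ^ n) c ∧ ValAt Q' (b ^ n) c) :
    ∃ z : K, z ^ n = 1 ∧ ∃ c : K, ValAt Q a (z * c) ∧ ValAt Q' b c := by
  obtain ⟨α, hα⟩ := exists_valAt h₁ Q (ord_nonneg_of_pow hn ha)
  obtain ⟨β, hβ⟩ := exists_valAt h₂ Q' (ord_nonneg_of_pow hn hb)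
  obtain ⟨c, hc1, hc2⟩ := hab
  have e1 : α ^ n = c := (valAt_pow hα n).unique hc1
  have e2 : β ^ n = c := (valAt_pow hβ n).unique hc2
  rcases eq_or_ne β 0 with hβ0 | hβ0
  · refine ⟨1, one_pow n, β, ?_, hβ⟩
    have hα0 : α = 0 := by
      have : α ^ n = 0 := by rw [e1, ← e2, hβ0, zero_pow hn]
      exact pow_eq_zero_iff hn |>.mp this
    rw [one_mul, hβ0, ← hα0]
    exact hα
  · refine ⟨α / β, ?_, β, ?_, hβ⟩
    · rw [div_pow, e1, e2, div_self]
      rw [← e2]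
      exact pow_ne_zero n hβ0
    · rw [div_mul_cancel₀ _ hβ0]
      exact hα

end Values

section RedDiv

variable {K F k Fk₁ Fk₂ ι : Type*} [Field K] [Field F] [Algebra K F]
  [Field k] [Field Fk₁] [Algebra k Fk₁] [Field Fk₂] [Algebra k Fk₂]
  (N : NodalSetup K F k Fk₁ Fk₂ ι)

/-- the reduction of a divisor, first component. -/
def redDiv₁ (D : Divisor K F) : Divisor k Fk₁ :=
  Finsupp.comapDomain (fun Q => some (Sum.inl Q)) (Finsupp.mapDomain N.r D)
    (fun _ _ _ _ h => Sum.inl_injective (Option.some_injective _ h))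

/-- the reduction of a divisor, second component. -/
def redDiv₂ (D : Divisor K F) : Divisor k Fk₂ :=
  Finsupp.comapDomain (fun Q => some (Sum.inr Q)) (Finsupp.mapDomain N.r D)
    (fun _ _ _ _ h => Sum.inr_injective (Option.some_injective _ h))

theorem redDiv₁_apply (D : Divisor K F) (Q : Place k Fk₁) :
    redDiv₁ N D Q = Finsupp.mapDomain N.r D (some (Sum.inl Q)) := rfl

theorem redDiv₂_apply (D : Divisor K F) (Q : Place k Fk₂) :
    redDiv₂ N D Q = Finsupp.mapDomain N.r D (some (Sum.inr Q)) := rfl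

theorem redDiv₁_add (D E : Divisor K F) : redDiv₁ N (D + E) = redDiv₁ N D + redDiv₁ N E := by
  ext Q
  rw [Finsupp.add_apply, redDiv₁_apply, redDiv₁_apply, redDiv₁_apply, Finsupp.mapDomain_add,
    Finsupp.add_apply]

theorem redDiv₂_add (D E : Divisor K F) : redDiv₂ N (D + E) = redDiv₂ N D + redDiv₂ N E := by
  ext Q
  rw [Finsupp.add_apply, redDiv₂_apply, redDiv₂_apply, redDiv₂_apply, Finsupp.mapDomain_add,
    Finsupp.add_apply]

theorem redDiv₁_zero : redDiv₁ N (0 : Divisor K F) = 0 := by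
  ext Q
  rw [redDiv₁_apply, Finsupp.mapDomain_zero]
  rfl

theorem redDiv₂_zero : redDiv₂ N (0 : Divisor K F) = 0 := by
  ext Q
  rw [redDiv₂_apply, Finsupp.mapDomain_zero]
  rfl

theorem mapDomain_neg' (D : Divisor K F) :
    Finsupp.mapDomain N.r (-D) = -Finsupp.mapDomain N.r D := by
  have h := Finsupp.mapDomain_add (f := N.r) (v₁ := D) (v₂ := -D)
  rw [add_neg_cancel, Finsupp.mapDomain_zero] at h
  exact eq_neg_of_add_eq_zero_right h.symm

theorem mapDomain_sub' (D E : Divisor K F) :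
    Finsupp.mapDomain N.r (D - E) = Finsupp.mapDomain N.r D - Finsupp.mapDomain N.r E := by
  rw [sub_eq_add_neg, Finsupp.mapDomain_add, mapDomain_neg', sub_eq_add_neg]

theorem mapDomain_nsmul' (n : ℕ) (D : Divisor K F) :
    Finsupp.mapDomain N.r (n • D) = n • Finsupp.mapDomain N.r D := by
  induction n with
  | zero => rw [zero_smul, zero_smul, Finsupp.mapDomain_zero]
  | succ m ih => rw [succ_nsmul, succ_nsmul, Finsupp.mapDomain_add, ih]

theorem redDiv₁_single (P : Place K F) (m : ℤ) (Q : Place k Fk₁) (h : N.r P = some (Sum.inl Q)) :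
    redDiv₁ N (Finsupp.single P m) = Finsupp.single Q m := by
  classical
  ext Q'
  rw [redDiv₁_apply, Finsupp.mapDomain_single, h, Finsupp.single_apply, Finsupp.single_apply]
  by_cases hQ : Q = Q'
  · rw [if_pos hQ, if_pos (by rw [hQ])]
  · rw [if_neg hQ, if_neg]
    intro h'
    exact hQ (Sum.inl_injective (Option.some_injective _ h'))

theorem redDiv₂_single (P : Place K F) (m : ℤ) (Q : Place k Fk₂) (h : N.r P = some (Sum.inr Q)) :
    redDiv₂ N (Finsupp.single P m) = Finsupp.single Q m := by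
  classical
  ext Q'
  rw [redDiv₂_apply, Finsupp.mapDomain_single, h, Finsupp.single_apply, Finsupp.single_apply]
  by_cases hQ : Q = Q'
  · rw [if_pos hQ, if_pos (by rw [hQ])]
  · rw [if_neg hQ, if_neg]
    intro h'
    exact hQ (Sum.inr_injective (Option.some_injective _ h'))

theorem redDiv₁_single_of_ne (P : Place K F) (m : ℤ) (h : ∀ Q, N.r P ≠ some (Sum.inl Q)) :
    redDiv₁ N (Finsupp.single P m) = 0 := by
  classical
  ext Q'
  rw [redDiv₁_apply, Finsupp.mapDomain_single, Finsupp.single_apply, if_neg (h Q')]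
  rfl

theorem redDiv₂_single_of_ne (P : Place K F) (m : ℤ) (h : ∀ Q, N.r P ≠ some (Sum.inr Q)) :
    redDiv₂ N (Finsupp.single P m) = 0 := by
  classical
  ext Q'
  rw [redDiv₂_apply, Finsupp.mapDomain_single, Finsupp.single_apply, if_neg (h Q')]
  rfl

/-- nothing reduces to a node. -/
theorem redDiv₁_node (D : Divisor K F) (i : ι) : redDiv₁ N D (N.s₁ i) = 0 := by
  classical
  rw [redDiv₁_apply, Fermat.Agent.S18Key.mapDomain_apply_eq_sum]
  exact Finset.sum_eq_zero fun P _ => if_neg (N.r_ne_node₁ P i)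

theorem redDiv₂_node (D : Divisor K F) (i : ι) : redDiv₂ N D (N.s₂ i) = 0 := by
  classical
  rw [redDiv₂_apply, Fermat.Agent.S18Key.mapDomain_apply_eq_sum]
  exact Finset.sum_eq_zero fun P _ => if_neg (N.r_ne_node₂ P i)

theorem redDiv₁_nonneg {D : Divisor K F} (hD : 0 ≤ D) : 0 ≤ redDiv₁ N D := by
  intro Q
  rw [redDiv₁_apply]
  exact Fermat.Agent.S18Key.mapDomain_nonneg _ _ _ fun P _ => hD P

theorem redDiv₂_nonneg {D : Divisor K F} (hD : 0 ≤ D) : 0 ≤ redDiv₂ N D := by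
  intro Q
  rw [redDiv₂_apply]
  exact Fermat.Agent.S18Key.mapDomain_nonneg _ _ _ fun P _ => hD P

/-- **degree formula**. -/
theorem degree_eq_redDiv (D : Divisor K F) :
    Divisor.degree D = Finsupp.mapDomain N.r D none + Divisor.degree (redDiv₁ N D) +
      Divisor.degree (redDiv₂ N D) := by
  classical
  induction D using Finsupp.induction_linear with
  | zero =>
    rw [redDiv₁_zero, redDiv₂_zero, Finsupp.mapDomain_zero]
    simp
  | add D E hD hE =>
    rw [redDiv₁_add, redDiv₂_add, Finsupp.mapDomain_add, Finsupp.add_apply, map_add, map_add,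
      map_add, hD, hE]
    ring
  | single P m =>
    rw [degree_single_one N.S₁.hF]
    rcases hr : N.r P with _ | (Q | Q)
    · rw [redDiv₁_single_of_ne N P m (by rw [hr]; intro Q h; cases h),
        redDiv₂_single_of_ne N P m (by rw [hr]; intro Q h; cases h), Finsupp.mapDomain_single, hr]
      simp
    · rw [redDiv₁_single N P m Q hr,
        redDiv₂_single_of_ne N P m (by rw [hr]; intro Q h; cases h), Finsupp.mapDomain_single, hr,
        degree_single_one N.S₁.hFk]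
      simp
    · rw [redDiv₂_single N P m Q hr,
        redDiv₁_single_of_ne N P m (by rw [hr]; intro Q h; cases h), Finsupp.mapDomain_single, hr,
        degree_single_one N.S₂.hFk]
      simp

theorem mapDomain_none_of_isOrdDiv {D : Divisor K F} (hD : N.IsOrdDiv D) :
    Finsupp.mapDomain N.r D none = 0 := by
  classical
  rw [Fermat.Agent.S18Key.mapDomain_apply_eq_sum]
  refine Finset.sum_eq_zero fun P hP => if_neg ?_
  obtain ⟨Q, hQ⟩ := hD P (Finsupp.mem_support_iff.mp hP)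
  rw [hQ]
  exact fun h => by cases h

theorem degree_of_isOrdDiv {D : Divisor K F} (hD : N.IsOrdDiv D) :
    Divisor.degree D = Divisor.degree (redDiv₁ N D) + Divisor.degree (redDiv₂ N D) := by
  rw [degree_eq_redDiv N D, mapDomain_none_of_isOrdDiv N hD, zero_add]

/-- an effective divisor with `(r_* E)(none) = 0` is ordinary. -/
theorem isOrdDiv_of_nonneg {E : Divisor K F} (hE : 0 ≤ E)
    (h : Finsupp.mapDomain N.r E none = 0) : N.IsOrdDiv E := by
  intro P hP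
  rcases hr : N.r P with _ | Q
  · exfalso
    have h1 := Fermat.Agent.S18Key.le_mapDomain N.r E none (fun P' _ => hE P') P hr
    rw [h] at h1
    have h2 : 0 ≤ E P := hE P
    exact hP (le_antisymm h1 h2)
  · exact ⟨Q, hr⟩

theorem isOrdDiv_add {D E : Divisor K F} (hD : N.IsOrdDiv D) (hE : N.IsOrdDiv E) :
    N.IsOrdDiv (D + E) := by
  intro P hP
  by_cases h : D P = 0
  · apply hE P
    intro h'
    apply hP
    rw [Finsupp.add_apply, h, h', add_zero]
  · exact hD P h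

theorem isOrdDiv_neg {D : Divisor K F} (hD : N.IsOrdDiv D) : N.IsOrdDiv (-D) := by
  intro P hP
  apply hD P
  intro h
  apply hP
  rw [Finsupp.neg_apply, h, neg_zero]

theorem isOrdDiv_sub {D E : Divisor K F} (hD : N.IsOrdDiv D) (hE : N.IsOrdDiv E) :
    N.IsOrdDiv (D - E) := by
  rw [sub_eq_add_neg]
  exact isOrdDiv_add N hD (isOrdDiv_neg N hE)

end RedDiv

end Fermat.Agent.BadRed.Gluing
end
end MergeWrap_Lib_BadRed_Nodal_Gluing_Values

section MergeWrap_Lib_BadRed_Nodal_Gluing_JointLattice -- from Lib/BadRed/Nodal/Gluing/JointLattice.lean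

set_option autoImplicit false

/-!
# Cluster T, WP N3 (gluing): the JOINT LATTICE

`S₁`, `S₂` two constant reductions of `F / K` over the same valuation ring `A` of `K`, both with
the lattice property, `W` a finite-dimensional `K`-subspace of `F`, `c₀ ∈ Kˣ`.  Then
`Lam = {φ ∈ W : φ ∈ Ov₁, c₀⁻¹ φ ∈ Ov₂}` contains `dim_K W` elements whose JOINT reductions
`(red₁ φ, red₂ (c₀⁻¹ φ))` are `k`-linearly independent.

Proof: `W ∩ Ov₁` and `W ∩ c₀ Ov₂` are free `A`-modules of finite rank (lattice property), their sum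
is finitely generated and torsion-free, hence free (valuation rings are Bezout), hence finitely
presented, so the intersection is finitely generated, hence free; a basis of the intersection is
orthonormal for the joint reduction by the scaling property.
-/

noncomputable section

open Fermat.Agent.RR Fermat.Agent.Deuring

namespace Fermat.Agent.BadRed.Gluing

section Abstract

variable {K F : Type*} [Field K] [Field F] [Algebra K F] (A : ValuationSubring K)

theorem coe_smul_eq (a : A) (x : F) : a • x = (a : K) • x := rfl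

/-- an `A`-submodule of a `K`-vector space is flat. -/
theorem flat_of_submodule (L : Submodule A F) : Module.Flat A L := by
  rw [Module.Flat.flat_iff_torsion_eq_bot_of_isBezout,
    ← Submodule.isTorsionFree_iff_torsion_eq_bot]
  infer_instance

/-- a finitely generated `A`-submodule of a `K`-vector space is free. -/
theorem free_of_fg (L : Submodule A F) (hL : L.FG) : Module.Free A L := by
  have : Module.Finite A L := Module.Finite.iff_fg.mpr hL
  have := flat_of_submodule A L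
  exact Module.free_of_flat_of_isLocalRing

/-- coherence: the intersection of two finitely generated `A`-submodules is finitely
generated. -/
theorem fg_inf (L₁ L₂ : Submodule A F) (h₁ : L₁.FG) (h₂ : L₂.FG) : (L₁ ⊓ L₂).FG := by
  have : Module.Finite A L₁ := Module.Finite.iff_fg.mpr h₁
  have : Module.Finite A L₂ := Module.Finite.iff_fg.mpr h₂
  have hM : (L₁ ⊔ L₂).FG := h₁.sup h₂
  have : Module.Finite A ↥(L₁ ⊔ L₂) := Module.Finite.iff_fg.mpr hM
  have : Module.Free A ↥(L₁ ⊔ L₂) := free_of_fg A _ hM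
  have : Module.FinitePresentation A ↥(L₁ ⊔ L₂) := Module.finitePresentation_of_projective A _
  let f : (L₁ × L₂) →ₗ[A] ↥(L₁ ⊔ L₂) :=
    LinearMap.coprod (Submodule.inclusion le_sup_left) (Submodule.inclusion le_sup_right)
  have hf : Function.Surjective f := by
    rintro ⟨x, hx⟩
    obtain ⟨a, ha, b, hb, rfl⟩ := Submodule.mem_sup.mp hx
    exact ⟨(⟨a, ha⟩, ⟨b, hb⟩), Subtype.ext rfl⟩
  have hker : (LinearMap.ker f).FG := Module.FinitePresentation.fg_ker f hf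
  have himg : L₁ ⊓ L₂ = (LinearMap.ker f).map (L₁.subtype ∘ₗ LinearMap.fst A L₁ L₂) := by
    ext x
    constructor
    · intro hx
      obtain ⟨hx1, hx2⟩ := Submodule.mem_inf.mp hx
      refine ⟨(⟨x, hx1⟩, ⟨-x, neg_mem hx2⟩), ?_, rfl⟩
      rw [SetLike.mem_coe, LinearMap.mem_ker]
      apply Subtype.ext
      change x + -x = 0
      exact add_neg_cancel x
    · rintro ⟨⟨⟨a, ha⟩, ⟨b, hb⟩⟩, hab, rfl⟩
      rw [SetLike.mem_coe, LinearMap.mem_ker] at hab
      have h0 : a + b = 0 := congrArg Subtype.val hab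
      have hab' : a = -b := eq_neg_of_add_eq_zero_left h0
      refine Submodule.mem_inf.mpr ⟨ha, ?_⟩
      change a ∈ L₂
      rw [hab']
      exact neg_mem hb
  rw [himg]
  exact hker.map _

/-- a finitely generated `A`-submodule of a `K`-vector space has an `A`-basis which is
`K`-linearly independent. -/
theorem exists_basis_of_fg (L : Submodule A F) (hL : L.FG) :
    ∃ (r : ℕ) (w : Fin r → F), LinearIndependent K w ∧ Submodule.span A (Set.range w) = L := by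
  have : Module.Finite A L := Module.Finite.iff_fg.mpr hL
  have := free_of_fg A L hL
  let b := Module.finBasis A L
  refine ⟨_, fun i => (b i : F), ?_, ?_⟩
  · have h1 : LinearIndependent A (fun i => (b i : F)) :=
      b.linearIndependent.map' L.subtype (Submodule.ker_subtype L)
    exact h1.localization K (nonZeroDivisors A)
  · have h2 := b.span_eq
    have h3 : Submodule.map L.subtype (Submodule.span A (Set.range b)) = L := by
      rw [h2, Submodule.map_top, Submodule.range_subtype]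
    rw [Submodule.map_span, ← Set.range_comp] at h3
    exact h3

end Abstract

section Lattice

variable {K F k Fk : Type*} [Field K] [Field F] [Algebra K F]
  [Field k] [Field Fk] [Algebra k Fk] (A : ValuationSubring K)

/-- the scaled lattice `{φ ∈ W : c⁻¹ φ ∈ Ov}`, an `A`-submodule of `F`. -/
def scaledLat (S : ValSetup K F k Fk) (hA : S.A = A) (W : Submodule K F) (c : K) :
    Submodule A F where
  carrier := {φ | φ ∈ W ∧ c⁻¹ • φ ∈ S.Ov}
  zero_mem' := ⟨zero_mem _, by rw [smul_zero]; exact zero_mem _⟩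
  add_mem' := by
    rintro x y ⟨hx1, hx2⟩ ⟨hy1, hy2⟩
    exact ⟨add_mem hx1 hy1, by rw [smul_add]; exact add_mem hx2 hy2⟩
  smul_mem' := by
    rintro ⟨a, ha⟩ x ⟨hx1, hx2⟩
    refine ⟨W.smul_mem a hx1, ?_⟩
    change c⁻¹ • (a • x) ∈ S.Ov
    rw [smul_comm]
    exact S.smul_mem (hA ▸ ha) hx2

theorem mem_scaledLat_iff (S : ValSetup K F k Fk) (hA : S.A = A) (W : Submodule K F) (c : K)
    (φ : F) : φ ∈ scaledLat A S hA W c ↔ φ ∈ W ∧ c⁻¹ • φ ∈ S.Ov := Iff.rfl

/-- the scaled lattice is finitely generated (lattice property). -/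
theorem fg_scaledLat (S : ValSetup K F k Fk) (hA : S.A = A) (hL : HasLattice S)
    (W : Submodule K F) [hW : FiniteDimensional K W] {c : K} (hc : c ≠ 0) :
    (scaledLat A S hA W c).FG := by
  classical
  obtain ⟨n, u, huW, huO, hspan, hli⟩ := hL W hW
  rw [Submodule.fg_iff_exists_fin_generating_family]
  refine ⟨n, fun i => c • u i, ?_⟩
  apply le_antisymm
  · rw [Submodule.span_le]
    rintro _ ⟨i, rfl⟩
    refine ⟨W.smul_mem c (huW i), ?_⟩
    rw [smul_smul, inv_mul_cancel₀ hc, one_smul]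
    exact huO i
  · rintro φ ⟨hφW, hφO⟩
    have h1 : c⁻¹ • φ ∈ Submodule.span K (Set.range u) := by
      rw [hspan]
      exact W.smul_mem _ hφW
    obtain ⟨a, ha⟩ := (Submodule.mem_span_range_iff_exists_fun K).mp h1
    have haA : ∀ i, a i ∈ S.A := coeff_mem_of_sum_mem S u huO hli a (by rw [ha]; exact hφO)
    rw [Submodule.mem_span_range_iff_exists_fun]
    refine ⟨fun i => ⟨a i, hA ▸ haA i⟩, ?_⟩
    have h2 : φ = c • (c⁻¹ • φ) := by
      rw [smul_smul, mul_inv_cancel₀ hc, one_smul]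
    rw [h2, ← ha, Finset.smul_sum]
    refine Finset.sum_congr rfl fun i _ => ?_
    change a i • c • u i = c • a i • u i
    rw [smul_comm]

end Lattice

section Joint

variable {K F k Fk₁ Fk₂ : Type*} [Field K] [Field F] [Algebra K F]
  [Field k] [Field Fk₁] [Algebra k Fk₁] [Field Fk₂] [Algebra k Fk₂]
  (S₁ : ValSetup K F k Fk₁) (S₂ : ValSetup K F k Fk₂) (hA : S₁.A = S₂.A)

/-- the joint lattice `{φ ∈ W : φ ∈ Ov₁, c₀⁻¹ φ ∈ Ov₂}`. -/
def jointLat (W : Submodule K F) (c₀ : K) : Submodule S₁.A F :=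
  scaledLat S₁.A S₁ rfl W 1 ⊓ scaledLat S₁.A S₂ hA.symm W c₀

theorem mem_jointLat_iff (W : Submodule K F) (c₀ : K) (φ : F) :
    φ ∈ jointLat S₁ S₂ hA W c₀ ↔ φ ∈ W ∧ φ ∈ S₁.Ov ∧ c₀⁻¹ • φ ∈ S₂.Ov := by
  unfold jointLat
  rw [Submodule.mem_inf, mem_scaledLat_iff, mem_scaledLat_iff, inv_one, one_smul]
  tauto

include hA in
/-- common scaling: every `φ ≠ 0` has a multiple in the joint lattice with nonzero joint
reduction. -/
theorem exists_common_scale {φ : F} (hφ : φ ≠ 0) {c₀ : K} (hc₀ : c₀ ≠ 0) :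
    ∃ π : K, π ≠ 0 ∧ π⁻¹ • φ ∈ S₁.Ov ∧ c₀⁻¹ • π⁻¹ • φ ∈ S₂.Ov ∧
      (S₁.red (π⁻¹ • φ) ≠ 0 ∨ S₂.red (c₀⁻¹ • π⁻¹ • φ) ≠ 0) := by
  obtain ⟨c₁, hc₁, hu₁⟩ := S₁.exists_scale hφ
  have hφ' : c₀⁻¹ • φ ≠ 0 := smul_ne_zero (inv_ne_zero hc₀) hφ
  obtain ⟨c₂, hc₂, hu₂⟩ := S₂.exists_scale hφ'
  by_cases hcase : c₁ * c₂⁻¹ ∈ S₁.A
  · refine ⟨c₂, hc₂, ?_, ?_, Or.inr ?_⟩
    · have e : c₂⁻¹ • φ = (c₁ * c₂⁻¹) • (c₁⁻¹ • φ) := by
        rw [smul_smul, mul_assoc, mul_comm c₂⁻¹, ← mul_assoc, mul_inv_cancel₀ hc₁, one_mul]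
      rw [e]
      exact S₁.smul_mem hcase (S₁.mem_of_red_ne_zero hu₁)
    · rw [smul_comm]
      exact S₂.mem_of_red_ne_zero hu₂
    · rw [smul_comm]
      exact hu₂
  · have hcase' : (c₁ * c₂⁻¹)⁻¹ ∈ S₁.A := (S₁.A.mem_or_inv_mem _).resolve_left hcase
    have hcase2 : c₂ * c₁⁻¹ ∈ S₂.A := by
      rw [← hA]
      have e : c₂ * c₁⁻¹ = (c₁ * c₂⁻¹)⁻¹ := by
        rw [mul_inv, inv_inv, mul_comm]
      rw [e]
      exact hcase'
    refine ⟨c₁, hc₁, S₁.mem_of_red_ne_zero hu₁, ?_, Or.inl hu₁⟩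
    have e : c₀⁻¹ • c₁⁻¹ • φ = (c₂ * c₁⁻¹) • (c₂⁻¹ • c₀⁻¹ • φ) := by
      rw [smul_comm c₀⁻¹ c₁⁻¹ φ, smul_smul (c₂ * c₁⁻¹), mul_assoc, mul_comm c₁⁻¹, ← mul_assoc,
        mul_inv_cancel₀ hc₂, one_mul]
    rw [e]
    exact S₂.smul_mem hcase2 (S₂.mem_of_red_ne_zero hu₂)

/-- a constant with nonzero residue is a unit of `A`. -/
theorem inv_mem_of_res_ne_zero {c : K} (hc : c ∈ S₁.A) (h : S₁.res ⟨c, hc⟩ ≠ 0) :
    c⁻¹ ∈ S₁.A := by
  have h1 : S₁.red (algebraMap K F c) ≠ 0 := by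
    rw [S₁.red_algebraMap hc]
    intro h0
    apply h
    exact (map_eq_zero_iff _ (algebraMap k Fk₁).injective).mp h0
  have h2 := S₁.inv_mem_of_red_ne_zero h1
  rw [← map_inv₀] at h2
  exact (S₁.mem_Ov_iff _).mp h2

/-- if `c ∉ A` or the residue of `c` is nonzero then `c⁻¹ ∈ A`. -/
theorem inv_mem_of_not (c : K) (h : ¬ ∃ hc : c ∈ S₁.A, S₁.res ⟨c, hc⟩ = 0) : c⁻¹ ∈ S₁.A := by
  by_cases hc : c ∈ S₁.A
  · apply inv_mem_of_res_ne_zero S₁ hc
    intro h0
    exact h ⟨hc, h0⟩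
  · exact (S₁.A.mem_or_inv_mem c).resolve_left hc

include hA in
/-- **JOINT LATTICE**: there are `dim_K W` elements of the joint lattice whose joint reductions
are `k`-linearly independent. -/
theorem exists_joint_basis
    (hres : ∀ (c : K) (h₁ : c ∈ S₁.A) (h₂ : c ∈ S₂.A), S₁.res ⟨c, h₁⟩ = S₂.res ⟨c, h₂⟩)
    (lat₁ : HasLattice S₁) (lat₂ : HasLattice S₂) (W : Submodule K F)
    [FiniteDimensional K W] {c₀ : K} (hc₀ : c₀ ≠ 0) :
    ∃ (r : ℕ) (w : Fin r → F), r = Module.finrank K W ∧ (∀ i, w i ∈ W) ∧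
      (∀ i, w i ∈ S₁.Ov) ∧ (∀ i, c₀⁻¹ • w i ∈ S₂.Ov) ∧
      LinearIndependent k (fun i => ((S₁.red (w i), S₂.red (c₀⁻¹ • w i)) : Fk₁ × Fk₂)) := by
  classical
  have hfg : (jointLat S₁ S₂ hA W c₀).FG :=
    fg_inf S₁.A _ _ (fg_scaledLat S₁.A S₁ rfl lat₁ W one_ne_zero)
      (fg_scaledLat S₁.A S₂ hA.symm lat₂ W hc₀)
  obtain ⟨r, w, hwli, hwspan⟩ := exists_basis_of_fg S₁.A _ hfg
  have hwmem : ∀ i, w i ∈ jointLat S₁ S₂ hA W c₀ := by
    intro i
    rw [← hwspan]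
    exact Submodule.subset_span ⟨i, rfl⟩
  have hwW : ∀ i, w i ∈ W := fun i => ((mem_jointLat_iff S₁ S₂ hA W c₀ _).mp (hwmem i)).1
  have hwO₁ : ∀ i, w i ∈ S₁.Ov := fun i => ((mem_jointLat_iff S₁ S₂ hA W c₀ _).mp (hwmem i)).2.1
  have hwO₂ : ∀ i, c₀⁻¹ • w i ∈ S₂.Ov :=
    fun i => ((mem_jointLat_iff S₁ S₂ hA W c₀ _).mp (hwmem i)).2.2
  -- every element of the joint lattice is an integral combination of `w`
  have hcomb : ∀ ψ ∈ jointLat S₁ S₂ hA W c₀, ∃ b : Fin r → K, (∀ i, b i ∈ S₁.A) ∧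
      ∑ i, b i • w i = ψ := by
    intro ψ hψ
    rw [← hwspan, Submodule.mem_span_range_iff_exists_fun] at hψ
    obtain ⟨b, hb⟩ := hψ
    exact ⟨fun i => (b i : K), fun i => (b i).2, hb⟩
  -- `w` spans `W` over `K`
  have hspanK : Submodule.span K (Set.range w) = W := by
    apply le_antisymm
    · rw [Submodule.span_le]
      rintro _ ⟨i, rfl⟩
      exact hwW i
    · intro φ hφW
      rcases eq_or_ne φ 0 with rfl | hφ0
      · exact zero_mem _
      obtain ⟨π, hπ, h1, h2, -⟩ := exists_common_scale S₁ S₂ hA hφ0 hc₀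
      have hψ : π⁻¹ • φ ∈ jointLat S₁ S₂ hA W c₀ :=
        (mem_jointLat_iff S₁ S₂ hA W c₀ _).mpr ⟨W.smul_mem _ hφW, h1, h2⟩
      obtain ⟨b, -, hb⟩ := hcomb _ hψ
      have e : φ = π • (π⁻¹ • φ) := by rw [smul_smul, mul_inv_cancel₀ hπ, one_smul]
      rw [e, ← hb]
      refine Submodule.smul_mem _ _ (Submodule.sum_mem _ fun i _ => ?_)
      exact Submodule.smul_mem _ _ (Submodule.subset_span ⟨i, rfl⟩)
  have hr : r = Module.finrank K W := by
    rw [← hspanK, finrank_span_eq_card hwli, Fintype.card_fin]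
  refine ⟨r, w, hr, hwW, hwO₁, hwO₂, ?_⟩
  rw [Fintype.linearIndependent_iff]
  intro l hl
  -- lift the coefficients
  choose a ha using fun i => S₁.res_surj (l i)
  have haA : ∀ i, (a i : K) ∈ S₁.A := fun i => (a i).2
  have haA₂ : ∀ i, (a i : K) ∈ S₂.A := fun i => hA ▸ (a i).2
  have hl1 : ∑ i, l i • S₁.red (w i) = 0 := by
    have := congrArg Prod.fst hl
    simpa [Prod.fst_sum] using this
  have hl2 : ∑ i, l i • S₂.red (c₀⁻¹ • w i) = 0 := by
    have := congrArg Prod.snd hl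
    simpa [Prod.snd_sum] using this
  set φ : F := ∑ i, (a i : K) • w i with hφdef
  obtain ⟨hφO₁, hφred₁⟩ := red_sum S₁ w hwO₁ (fun i => (a i : K)) haA
  obtain ⟨hφO₂, hφred₂⟩ := red_sum S₂ (fun i => c₀⁻¹ • w i) hwO₂ (fun i => (a i : K)) haA₂
  have e2 : ∑ i, (a i : K) • c₀⁻¹ • w i = c₀⁻¹ • φ := by
    rw [hφdef, Finset.smul_sum]
    exact Finset.sum_congr rfl fun i _ => smul_comm _ _ _
  rw [e2] at hφO₂ hφred₂
  have hred1 : S₁.red φ = 0 := by
    rw [hφred₁, ← hl1]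
    refine Finset.sum_congr rfl fun i _ => ?_
    rw [← ha i]
  have hred2 : S₂.red (c₀⁻¹ • φ) = 0 := by
    rw [hφred₂, ← hl2]
    refine Finset.sum_congr rfl fun i _ => ?_
    rw [← ha i, hres _ (haA i) (haA₂ i)]
  rcases eq_or_ne φ 0 with hφ0 | hφ0
  · have h0 := (Fintype.linearIndependent_iff.mp hwli) (fun i => (a i : K)) hφ0
    intro i
    rw [← ha i]
    have : a i = 0 := Subtype.ext (h0 i)
    rw [this, map_zero]
  · obtain ⟨π, hπ, h1, h2, hne⟩ := exists_common_scale S₁ S₂ hA hφ0 hc₀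
    have hφW : φ ∈ W := Submodule.sum_mem _ fun i _ => W.smul_mem _ (hwW i)
    have hψ : π⁻¹ • φ ∈ jointLat S₁ S₂ hA W c₀ :=
      (mem_jointLat_iff S₁ S₂ hA W c₀ _).mpr ⟨W.smul_mem _ hφW, h1, h2⟩
    -- `π` is in the maximal ideal
    have hπm : ∃ hc : π ∈ S₁.A, S₁.res ⟨π, hc⟩ = 0 := by
      by_contra hcon
      have hinv : π⁻¹ ∈ S₁.A := inv_mem_of_not S₁ π hcon
      have hinv₂ : π⁻¹ ∈ S₂.A := hA ▸ hinv
      rcases hne with hne | hne
      · apply hne
        rw [S₁.red_smul hinv hφO₁, hred1, smul_zero]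
      · apply hne
        rw [smul_comm, S₂.red_smul hinv₂ hφO₂, hred2, smul_zero]
    obtain ⟨hπA, hπres⟩ := hπm
    obtain ⟨b, hbA, hb⟩ := hcomb _ hψ
    have e : ∑ i, ((a i : K) - π * b i) • w i = 0 := by
      simp only [sub_smul, Finset.sum_sub_distrib]
      rw [sub_eq_zero]
      change φ = _
      have e' : φ = π • (π⁻¹ • φ) := by rw [smul_smul, mul_inv_cancel₀ hπ, one_smul]
      rw [e', ← hb, Finset.smul_sum]
      exact Finset.sum_congr rfl fun i _ => (smul_smul _ _ _)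
    have h0 := (Fintype.linearIndependent_iff.mp hwli) _ e
    intro i
    have hai : (a i : K) = π * b i := sub_eq_zero.mp (h0 i)
    have hai' : a i = (⟨π, hπA⟩ : S₁.A) * ⟨b i, hbA i⟩ := Subtype.ext hai
    rw [← ha i, hai', map_mul, hπres, zero_mul]

end Joint

end Fermat.Agent.BadRed.Gluing
end
end MergeWrap_Lib_BadRed_Nodal_Gluing_JointLattice

section MergeWrap_Lib_BadRed_Nodal_Gluing_Data -- from Lib/BadRed/Nodal/Gluing/Data.lean

set_option autoImplicit false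

/-!
# Cluster T, WP N3 (gluing): gluing data of a `W₀`-divisor

For a `W₀`-divisor `D` (`n D = div g`, `g / c₁` a unit of `Ov₁` with reduction `h₁ ^ n`, `g / c₂` a
unit of `Ov₂` with reduction `h₂ ^ n`, `c₀ ^ n = c₁ / c₂`) and `φ ∈ Ov₁ ∩ c₀ Ov₂`:

* `A φ = red₁ φ * h₁`, `B φ = red₂ (c₀⁻¹ φ) * h₂`;
* `f φ = φ ^ n * g / c₁ = (c₀⁻¹ φ) ^ n * g / c₂` has divisor `n (div φ + D)` and reductions
  `(A φ) ^ n`, `(B φ) ^ n`.
-/

noncomputable section

open AlgebraicCurve Fermat.Agent.RR Fermat.Agent.Deuring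

namespace Fermat.Agent.BadRed.Gluing

variable {K F k Fk₁ Fk₂ ι : Type*} [Field K] [Field F] [Algebra K F]
  [Field k] [Field Fk₁] [Algebra k Fk₁] [Field Fk₂] [Algebra k Fk₂]

/-- gluing data of a `W₀`-divisor for the exponent `n`. -/
structure GData (N : NodalSetup K F k Fk₁ Fk₂ ι) (n : ℕ) where
  /-- the divisor -/
  D : Divisor K F
  /-- the Kummer generator: `n D = div g` -/
  g : F
  /-- normalising constant for the first valuation -/
  c₁ : K
  /-- normalising constant for the second valuation -/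
  c₂ : K
  /-- an `n`-th root of `c₁ / c₂` -/
  c₀ : K
  /-- `n`-th root of the first reduction -/
  h₁ : Fk₁
  /-- `n`-th root of the second reduction -/
  h₂ : Fk₂
  hdeg : Divisor.degree D = 0
  hg : g ≠ 0
  hdiv : ∀ P : Place K F, P.ord g = n * D P
  hc₁ : c₁ ≠ 0
  hc₂ : c₂ ≠ 0
  hc₀0 : c₀ ≠ 0
  hh₁ : h₁ ≠ 0
  hh₂ : h₂ ≠ 0
  hred₁ : N.S₁.red (g / algebraMap K F c₁) = h₁ ^ n
  hred₂ : N.S₂.red (g / algebraMap K F c₂) = h₂ ^ n
  hc₀ : c₀ ^ n = c₁ / c₂

variable {N : NodalSetup K F k Fk₁ Fk₂ ι} {n : ℕ} (d : GData N n)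

namespace GData

/-- the first normalised Kummer generator. -/
def u₁ : F := d.g / algebraMap K F d.c₁

/-- the second normalised Kummer generator. -/
def u₂ : F := d.g / algebraMap K F d.c₂

theorem red_u₁ : N.S₁.red d.u₁ = d.h₁ ^ n := d.hred₁

theorem red_u₂ : N.S₂.red d.u₂ = d.h₂ ^ n := d.hred₂

theorem red_u₁_ne : N.S₁.red d.u₁ ≠ 0 := by
  rw [d.red_u₁]
  exact pow_ne_zero n d.hh₁

theorem red_u₂_ne : N.S₂.red d.u₂ ≠ 0 := by
  rw [d.red_u₂]
  exact pow_ne_zero n d.hh₂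

theorem u₁_mem : d.u₁ ∈ N.S₁.Ov := N.S₁.mem_of_red_ne_zero d.red_u₁_ne

theorem u₂_mem : d.u₂ ∈ N.S₂.Ov := N.S₂.mem_of_red_ne_zero d.red_u₂_ne

theorem u₁_inv_mem : d.u₁⁻¹ ∈ N.S₁.Ov := N.S₁.inv_mem_of_red_ne_zero d.red_u₁_ne

theorem u₂_inv_mem : d.u₂⁻¹ ∈ N.S₂.Ov := N.S₂.inv_mem_of_red_ne_zero d.red_u₂_ne

theorem u₁_ne_zero : d.u₁ ≠ 0 := N.S₁.ne_zero_of_red_ne_zero d.red_u₁_ne

theorem u₂_ne_zero : d.u₂ ≠ 0 := N.S₂.ne_zero_of_red_ne_zero d.red_u₂_ne

theorem algebraMap_c₁_ne : algebraMap K F d.c₁ ≠ 0 := (map_ne_zero _).mpr d.hc₁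

theorem algebraMap_c₂_ne : algebraMap K F d.c₂ ≠ 0 := (map_ne_zero _).mpr d.hc₂

theorem algebraMap_c₀_ne : algebraMap K F d.c₀ ≠ 0 := (map_ne_zero _).mpr d.hc₀0

/-- `A φ = red₁ φ * h₁`. -/
def A (φ : F) : Fk₁ := N.S₁.red φ * d.h₁

/-- `B φ = red₂ (c₀⁻¹ φ) * h₂`. -/
def B (φ : F) : Fk₂ := N.S₂.red (d.c₀⁻¹ • φ) * d.h₂

/-- `f φ = φ ^ n * g / c₁`. -/
def f (φ : F) : F := φ ^ n * d.u₁

@[simp] theorem A_zero : d.A 0 = 0 := by simp [A]

@[simp] theorem B_zero : d.B 0 = 0 := by simp [B]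

theorem A_add {φ ψ : F} (hφ : φ ∈ N.S₁.Ov) (hψ : ψ ∈ N.S₁.Ov) :
    d.A (φ + ψ) = d.A φ + d.A ψ := by
  unfold A
  rw [N.S₁.red_add hφ hψ, add_mul]

theorem B_add {φ ψ : F} (hφ : d.c₀⁻¹ • φ ∈ N.S₂.Ov) (hψ : d.c₀⁻¹ • ψ ∈ N.S₂.Ov) :
    d.B (φ + ψ) = d.B φ + d.B ψ := by
  unfold B
  rw [smul_add, N.S₂.red_add hφ hψ, add_mul]

theorem A_smul {a : K} (ha : a ∈ N.S₁.A) {φ : F} (hφ : φ ∈ N.S₁.Ov) :
    d.A (a • φ) = N.S₁.res ⟨a, ha⟩ • d.A φ := by
  unfold A
  rw [N.S₁.red_smul ha hφ, smul_mul_assoc]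

theorem B_smul {a : K} (ha : a ∈ N.S₁.A) {φ : F} (hφ : d.c₀⁻¹ • φ ∈ N.S₂.Ov) :
    d.B (a • φ) = N.S₁.res ⟨a, ha⟩ • d.B φ := by
  unfold B
  have ha₂ : a ∈ N.S₂.A := N.A_eq ▸ ha
  rw [smul_comm, N.S₂.red_smul ha₂ hφ, smul_mul_assoc, N.res_eq a ha ha₂]

theorem A_ne_zero_iff (φ : F) : d.A φ ≠ 0 ↔ N.S₁.red φ ≠ 0 := by
  unfold A
  exact ⟨fun h h0 => h (by rw [h0, zero_mul]), fun h => mul_ne_zero h d.hh₁⟩

theorem B_ne_zero_iff (φ : F) : d.B φ ≠ 0 ↔ N.S₂.red (d.c₀⁻¹ • φ) ≠ 0 := by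
  unfold B
  exact ⟨fun h h0 => h (by rw [h0, zero_mul]), fun h => mul_ne_zero h d.hh₂⟩

theorem u₂_eq : d.u₂ = d.u₁ * algebraMap K F d.c₀ ^ n := by
  unfold u₁ u₂
  rw [← map_pow, d.hc₀, map_div₀]
  have h1 := d.algebraMap_c₁_ne
  have h2 := d.algebraMap_c₂_ne
  field_simp

theorem f_eq₂ (φ : F) : d.f φ = (d.c₀⁻¹ • φ) ^ n * d.u₂ := by
  unfold f
  rw [d.u₂_eq, Algebra.smul_def, mul_pow, map_inv₀, inv_pow]
  have h0 : algebraMap K F d.c₀ ^ n ≠ 0 := pow_ne_zero n d.algebraMap_c₀_ne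
  field_simp

theorem f_mem₁ {φ : F} (hφ : φ ∈ N.S₁.Ov) : d.f φ ∈ N.S₁.Ov :=
  mul_mem (pow_mem hφ n) d.u₁_mem

theorem f_mem₂ {φ : F} (hφ : d.c₀⁻¹ • φ ∈ N.S₂.Ov) : d.f φ ∈ N.S₂.Ov := by
  rw [d.f_eq₂]
  exact mul_mem (pow_mem hφ n) d.u₂_mem

theorem red₁_f {φ : F} (hφ : φ ∈ N.S₁.Ov) : N.S₁.red (d.f φ) = d.A φ ^ n := by
  unfold f A
  rw [N.S₁.red_mul (pow_mem hφ n) d.u₁_mem, N.S₁.red_pow hφ, d.red_u₁, mul_pow]

theorem red₂_f {φ : F} (hφ : d.c₀⁻¹ • φ ∈ N.S₂.Ov) : N.S₂.red (d.f φ) = d.B φ ^ n := by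
  rw [d.f_eq₂]
  unfold B
  rw [N.S₂.red_mul (pow_mem hφ n) d.u₂_mem, N.S₂.red_pow hφ, d.red_u₂, mul_pow]

theorem f_ne_zero {φ : F} (hφ : φ ≠ 0) : d.f φ ≠ 0 :=
  mul_ne_zero (pow_ne_zero n hφ) d.u₁_ne_zero

theorem ord_u₁ (P : Place K F) : P.ord d.u₁ = n * d.D P := by
  unfold u₁
  rw [div_eq_mul_inv, P.ord_mul d.hg (inv_ne_zero d.algebraMap_c₁_ne), P.ord_inv,
    Fermat.Agent.S24Res.ord_algebraMap, neg_zero, add_zero, d.hdiv]

theorem ord_f {φ : F} (hφ : φ ≠ 0) (P : Place K F) :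
    P.ord (d.f φ) = n * (P.ord φ + d.D P) := by
  unfold f
  rw [P.ord_mul (pow_ne_zero n hφ) d.u₁_ne_zero, ord_pow_nat, d.ord_u₁]
  ring

theorem divOf_f {φ : F} (hφ : φ ≠ 0) :
    divOf N.S₁.hF (d.f φ) = n • (divOf N.S₁.hF φ + d.D) := by
  ext P
  rw [divOf_apply, d.ord_f hφ, Finsupp.smul_apply, Finsupp.add_apply, divOf_apply]
  simp

/-- if `A φ ≠ 0` then `f φ` is a unit of `Ov₁`. -/
theorem f_inv_mem₁ {φ : F} (hφ : φ ∈ N.S₁.Ov) (hA : d.A φ ≠ 0) : (d.f φ)⁻¹ ∈ N.S₁.Ov := by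
  apply N.S₁.inv_mem_of_red_ne_zero
  rw [d.red₁_f hφ]
  exact pow_ne_zero n hA

theorem f_inv_mem₂ {φ : F} (hφ : d.c₀⁻¹ • φ ∈ N.S₂.Ov) (hB : d.B φ ≠ 0) :
    (d.f φ)⁻¹ ∈ N.S₂.Ov := by
  apply N.S₂.inv_mem_of_red_ne_zero
  rw [d.red₂_f hφ]
  exact pow_ne_zero n hB

/-- admissible functions: integral for both valuations, nonzero, and `div φ + D ≥ 0` on the
annuli. -/
def Adm (φ : F) : Prop :=
  φ ≠ 0 ∧ φ ∈ N.S₁.Ov ∧ d.c₀⁻¹ • φ ∈ N.S₂.Ov ∧ ∀ P, N.r P = none → 0 ≤ P.ord φ + d.D P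

/-- **node condition for admissible functions.** -/
theorem node_of_adm (hn : n ≠ 0) {φ : F} (h : d.Adm φ) (i : ι) :
    ∃ z : k, z ^ n = 1 ∧ ∃ c : k, ValAt (N.s₁ i) (d.A φ) (z * c) ∧ ValAt (N.s₂ i) (d.B φ) c := by
  obtain ⟨hφ0, hφ1, hφ2, hann⟩ := h
  have hnode := N.node (d.f φ) (d.f_mem₁ hφ1) (d.f_mem₂ hφ2) (fun P hP => by
    rw [d.ord_f hφ0]
    exact mul_nonneg (Int.natCast_nonneg n) (hann P hP)) i
  rw [d.red₁_f hφ1, d.red₂_f hφ2] at hnode
  exact exists_root_of_unity N.S₁.hFk N.S₂.hFk _ _ hn hnode.1 hnode.2.1 hnode.2.2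

end GData

end Fermat.Agent.BadRed.Gluing
end
end MergeWrap_Lib_BadRed_Nodal_Gluing_Data
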