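import Mathlib
import Fermat.Agent.MUL.Lib.BadRed.Nodal.Gluing.Semilinear
import Fermat.Agent.MUL.Lib.BadRed.Nodal.Gluing.Inject
import Fermat.Agent.MUL.Orig.S22.PolyCore

section MergeWrap_Lib_BadRed_Nodal_Gluing_Main -- from Lib/BadRed/Nodal/Gluing/Main.lean

set_option autoImplicit false

/-!
# Cluster T, WP N3 (gluing): main theorems

* `GData.sub_mem_principal_of_isGlueAt` : INJECTIVITY of the gluing map: two `W₀`-divisors with
  the same gluing invariant are linearly equivalent (uses the nodal KEY LEMMA);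
* `smul_sub_nsmul_mem_principal` : for a Frobenius-like semilinear automorphism `t` (constants
  `c ↦ c ^ Q`, nodes fixed) and a `W₀`-divisor `D`: `t • D ∼ Q • D`;
* `exists_pow_mul_eq_smul` : function form, `u ^ n * g ^ Q = c * (t • g)`.
-/

noncomputable section

open AlgebraicCurve Fermat.Agent.RR Fermat.Agent.Deuring

namespace Fermat.Agent.BadRed.Gluing

variable {K F k Fk₁ Fk₂ ι : Type*} [Field K] [Field F] [Algebra K F]
  [Field k] [Field Fk₁] [Algebra k Fk₁] [Field Fk₂] [Algebra k Fk₂]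
  {N : NodalSetup K F k Fk₁ Fk₂ ι} {n : ℕ}

/-- the conclusion of the nodal key lemma (WP N2), used as a hypothesis. -/
def KeyConcl (N : NodalSetup K F k Fk₁ Fk₂ ι) : Prop :=
  ∀ m : ℕ, (m : K) ≠ 0 → ((m : K))⁻¹ ∈ N.S₁.A →
    ∀ D : Divisor K F, Divisor.degree D = 0 → N.RedTrivial D →
      (m • D) ∈ Divisor.principal (K := K) (F := F) →
      D ∈ Divisor.principal (K := K) (F := F)

/-- **INJECTIVITY of the gluing map.** -/
theorem GData.sub_mem_principal_of_isGlueAt [Fintype ι] (hKey : KeyConcl N)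
    (hn0 : (n : K) ≠ 0) (hnA : ((n : K))⁻¹ ∈ N.S₁.A) (d d' : GData N n)
    {R : Divisor K F} (hR : IsBig N R) {ζ : ι → k} (hζ : d.IsGlueAt R ζ)
    (hζ' : d'.IsGlueAt R ζ) : d.D - d'.D ∈ Divisor.principal (K := K) (F := F) := by
  have hn : n ≠ 0 := by
    rintro rfl
    exact hn0 Nat.cast_zero
  obtain ⟨a, b, hab, hgen⟩ := exists_isGenericPair hn hζ.1 hR
  obtain ⟨φ, hφ0, hφ, hA, hB, -⟩ := d.exists_lift_generic hn hR hζ hab hgen
  obtain ⟨φ', hφ'0, hφ', hA', hB', -⟩ := d'.exists_lift_generic hn hR hζ' hab hgen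
  have hA0 : ∀ i, (N.s₁ i).ord (d.A φ) = 0 := fun i => by
    rw [hA]
    exact ord_eq_zero_of_valAt (hgen.2.2 i).1 (ne_zero_of_pow_eq_one hn (hζ.1 i))
  have hB0 : ∀ i, (N.s₂ i).ord (d.B φ) = 0 := fun i => by
    rw [hB]
    exact ord_eq_zero_of_valAt (hgen.2.2 i).2 one_ne_zero
  exact GData.sub_mem_principal_of_generic hKey hn0 hnA d d' hR.nonneg hR.ord hφ0 hφ.1 hφ.2.1
    hφ.2.2 hφ'0 hφ'.1 hφ'.2.1 hφ'.2.2 (by rw [hA]; exact hgen.1) (by rw [hB]; exact hgen.2.1)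
    hA0 hB0 (by rw [hA', hA]) (by rw [hB', hB])

section Frob

variable {t : SemilinearAut K F} {Q : ℕ} {τ₁ : Fk₁ →+* Fk₁} {τ₂ : Fk₂ →+* Fk₂}

/-- the gluing invariant of `t • d` is `ζ ^ Q`. -/
theorem GData.isGlueAt_smulData [Fintype ι] [Infinite k] (hn : n ≠ 0) (hrel : N.GenusRel)
    (ht : IsFrobLike N t Q τ₁ τ₂) (d : GData N n) {R : Divisor K F} (hR : IsBig N R)
    {ζ : ι → k} (hζ : d.IsGlueAt R ζ) : (d.smulData ht).IsGlueAt R (fun i => ζ i ^ Q) := by
  obtain ⟨a, b, hab, hgen⟩ := exists_isGenericPair hn hζ.1 hR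
  obtain ⟨φ, hφ0, hφ, hA, hB, -⟩ := d.exists_lift_generic hn hR hζ hab hgen
  have hR' : IsBig N (R + t • R) :=
    hR.add (sl_smul_nonneg t hR.nonneg) (ht.isOrdDiv_smul hR.ord)
  have hle : R ≤ R + t • R := le_add_of_nonneg_right (sl_smul_nonneg t hR.nonneg)
  have hle' : t • R ≤ R + t • R := le_add_of_nonneg_left hR.nonneg
  have hφ' : (d.smulData ht).InLam (R + t • R) (t • φ) :=
    (d.smulData_inLam ht hφ).mono _ hle'
  refine GData.isGlueAt_of_witness hn hrel hR hR' hle hφ' fun i => ⟨1, one_ne_zero, ?_, ?_⟩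
  · rw [mul_one, d.smulData_A ht hφ.2.1, hA]
    exact ht.valAt₁ (hgen.2.2 i).1
  · rw [d.smulData_B ht hφ.2.2, hB]
    have := ht.valAt₂ (hgen.2.2 i).2
    rwa [one_pow] at this

/-- the gluing invariant of `d ^ Q` is `ζ ^ Q`. -/
theorem GData.isGlueAt_powData [Fintype ι] [Infinite k] (hn : n ≠ 0) (hrel : N.GenusRel)
    (d : GData N n) (Q : ℕ) {R : Divisor K F} (hR : IsBig N R)
    {ζ : ι → k} (hζ : d.IsGlueAt R ζ) : (d.powData Q).IsGlueAt R (fun i => ζ i ^ Q) := by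
  obtain ⟨a, b, hab, hgen⟩ := exists_isGenericPair hn hζ.1 hR
  obtain ⟨φ, hφ0, hφ, hA, hB, -⟩ := d.exists_lift_generic hn hR hζ hab hgen
  have hQR0 : (0 : Divisor K F) ≤ Q • R := nsmul_nonneg hR.nonneg Q
  have hQRord : N.IsOrdDiv (Q • R) := by
    intro P hP
    apply hR.ord P
    intro h0
    apply hP
    rw [Finsupp.smul_apply, h0, smul_zero]
  have hR' : IsBig N (R + Q • R) := hR.add hQR0 hQRord
  have hle : R ≤ R + Q • R := le_add_of_nonneg_right hQR0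
  have hle' : Q • R ≤ R + Q • R := le_add_of_nonneg_left hR.nonneg
  have hφ' : (d.powData Q).InLam (R + Q • R) (φ ^ Q) :=
    (d.powData_inLam Q hφ).mono _ hle'
  refine GData.isGlueAt_of_witness hn hrel hR hR' hle hφ' fun i => ⟨1, one_ne_zero, ?_, ?_⟩
  · rw [mul_one, d.powData_A Q hφ.2.1, hA]
    exact valAt_pow (hgen.2.2 i).1 Q
  · rw [d.powData_B Q hφ.2.2, hB]
    have := valAt_pow (hgen.2.2 i).2 Q
    rwa [one_pow] at this

/-- **(P2), divisor form**: a Frobenius-like semilinear automorphism acts on `W₀`-divisors as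
multiplication by `Q`, up to linear equivalence. -/
theorem smul_sub_nsmul_mem_principal [Fintype ι] [Infinite k] (hKey : KeyConcl N)
    (hrel : N.GenusRel) (hn0 : (n : K) ≠ 0) (hnA : ((n : K))⁻¹ ∈ N.S₁.A)
    (ht : IsFrobLike N t Q τ₁ τ₂) (d : GData N n) :
    t • d.D - Q • d.D ∈ Divisor.principal (K := K) (F := F) := by
  have hn : n ≠ 0 := by
    rintro rfl
    exact hn0 Nat.cast_zero
  obtain ⟨R, hR⟩ := exists_isBig N
  obtain ⟨ζ, hζ⟩ := d.exists_isGlueAt hn hrel hR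
  exact GData.sub_mem_principal_of_isGlueAt hKey hn0 hnA (d.smulData ht) (d.powData Q) hR
    (d.isGlueAt_smulData hn hrel ht hR hζ) (d.isGlueAt_powData hn hrel Q hR hζ)

/-- **(P2), function form**: `u ^ n * g ^ Q = c * (t • g)`. -/
theorem exists_pow_mul_eq_smul [Fintype ι] [Infinite k] (hKey : KeyConcl N)
    (hrel : N.GenusRel) (hn0 : (n : K) ≠ 0) (hnA : ((n : K))⁻¹ ∈ N.S₁.A)
    (ht : IsFrobLike N t Q τ₁ τ₂) (d : GData N n) :
    ∃ (u : F) (c : K), c ≠ 0 ∧ u ^ n * d.g ^ Q = algebraMap K F c * (t • d.g) := by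
  obtain ⟨u, hu0, hu⟩ := smul_sub_nsmul_mem_principal hKey hrel hn0 hnA ht d
  have htg : t • d.g ≠ 0 := sl_smul_ne_zero t d.hg
  have hgQ : d.g ^ Q ≠ 0 := pow_ne_zero Q d.hg
  have hun : u ^ n ≠ 0 := pow_ne_zero n hu0
  set w : F := (u ^ n * d.g ^ Q) / (t • d.g) with hw
  have hw0 : w ≠ 0 := div_ne_zero (mul_ne_zero hun hgQ) htg
  have hord : ∀ P : Place K F, P.ord w = 0 := by
    intro P
    have h1 := hu P
    rw [Finsupp.sub_apply, Finsupp.smul_apply, SemilinearAut.divisor_smul_apply] at h1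
    rw [hw, div_eq_mul_inv, P.ord_mul (mul_ne_zero hun hgQ) (inv_ne_zero htg), P.ord_inv,
      P.ord_mul hun hgQ, ord_pow_nat, ord_pow_nat, sl_ord_smul, d.hdiv, d.hdiv, ← h1]
    simp only [nsmul_eq_mul]
    ring
  have hmem : w ∈ riemannRochSpace (0 : Divisor K F) := by
    rw [mem_riemannRochSpace_iff]
    intro P
    right
    rw [hord P]
    simp
  obtain ⟨c, hc⟩ := (mem_riemannRochSpace_zero_iff N.S₁.hF w).mp hmem
  have hc0 : c ≠ 0 := by
    rintro rfl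
    rw [map_zero] at hc
    exact hw0 hc.symm
  refine ⟨u, c, hc0, ?_⟩
  rw [hc, hw, div_mul_cancel₀ _ htg]

end Frob

end Fermat.Agent.BadRed.Gluing
end
end MergeWrap_Lib_BadRed_Nodal_Gluing_Main
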